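/-
Programme ORD (S33), chapter CONN (helper6), file ApproxConn6: **an approximate Hopf generating set
with `𝔫`-valued generators gives a CONNECTED flat model**.

Setting of `FF/HOPF/Approx6`: `W` a PID, `Ω` a field, `Γ` acting on `Ω`, `hF : FixedInFrac W Ω Γ`,
`O : Subring Ω` with `W → O` (`hWO`), `O^Γ ⊆ W` (`hOfix`), `M` a finite `Γ`-module.  In addition
`𝔫 : AddSubgroup Ω` stable under multiplication by `O` (`h𝔫 : ∀ o ∈ O, ∀ a ∈ 𝔫, o * a ∈ 𝔫`).

* `sub_zero_mem_of_adjoin` : if all `s ∈ S` are `𝔫`-valued (and `O`-valued) then every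
  `h ∈ Algebra.adjoin W S` satisfies `h x - h 0 ∈ 𝔫`;
* `IsHopfOrder.hasConnModel` : a Hopf order `H ⊆ (M → Ω)` with `h x - h 0 ∈ 𝔫` for all `h ∈ H` gives
  `HasConnModel W Ω Γ 𝔫 M act`;
* **`hasConnModel_of_approxGen`** : `ApproxGen W O act S`, `S` `𝔫`-valued ⇒ `HasConnModel W Ω Γ 𝔫 M act`;
* **`conn_of_approxGen`** : … ⇒ `OrdP7.Conn ⊤ act ⊤` under the unramifiedness hypotheses of
  `NoFixed6` (`p` odd).
-/
import Mathlib
import Fermat.Agent.ORD.CONN.NoFixed6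
import Fermat.Agent.FF.HOPF.Approx6

set_option autoImplicit false
set_option linter.unusedSectionVars false

namespace Fermat.Agent.ORD.CONN.ApproxConn6

open WithConv TensorProduct Fermat.Agent.TW.FLAT Fermat.Agent.TW.FLAT.Points6
  Fermat.Agent.TW.FLAT.Descent6 Fermat.Agent.ORD.CONN.ConnModel6 Fermat.Agent.ORD.ALG.OrdP7
  Fermat.Agent.FF.HOPF.FunHopf6 Fermat.Agent.FF.HOPF.Order6 Fermat.Agent.FF.HOPF.Approx6
  Fermat.Agent.FF.BASE.ApproxGen2 Fermat.Agent.ORD.CONN.NoFixed6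

noncomputable section

variable {W : Type} [CommRing W] [IsDomain W] [IsPrincipalIdealRing W]
  {Ω : Type} [Field Ω] [Algebra W Ω] [FaithfulSMul W Ω]
  {Γ : Type} [Group Γ] [MulSemiringAction Γ Ω] [SMulCommClass Γ W Ω]
  {M : Type} [AddCommGroup M] [Finite M] {act : Γ → M → M}

/-- Elements of `W[S]` are congruent to their value at `0` modulo `𝔫`. -/
lemma sub_zero_mem_of_adjoin (O : Subring Ω) (hWO : ∀ w : W, algebraMap W Ω w ∈ O)
    (𝔫 : AddSubgroup Ω) (h𝔫 : ∀ o ∈ O, ∀ a ∈ 𝔫, o * a ∈ 𝔫) {S : Set (M → Ω)}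
    (hSO : ∀ s ∈ S, ∀ x, s x ∈ O) (hS𝔫 : ∀ s ∈ S, ∀ x, s x ∈ 𝔫) {h : M → Ω}
    (hh : h ∈ Algebra.adjoin W S) (x : M) : h x - h 0 ∈ 𝔫 := by
  induction hh using Algebra.adjoin_induction with
  | mem s hs => exact 𝔫.sub_mem (hS𝔫 s hs x) (hS𝔫 s hs 0)
  | algebraMap v =>
    have : (algebraMap W (M → Ω) v) x - (algebraMap W (M → Ω) v) 0 = 0 := sub_self _
    rw [this]
    exact 𝔫.zero_mem
  | add f g _ _ hf hg =>
    have : (f + g) x - (f + g) 0 = (f x - f 0) + (g x - g 0) := by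
      simp only [Pi.add_apply]; ring
    rw [this]
    exact 𝔫.add_mem hf hg
  | mul f g hf' hg' hf hg =>
    have : (f * g) x - (f * g) 0 = g x * (f x - f 0) + f 0 * (g x - g 0) := by
      simp only [Pi.mul_apply]; ring
    rw [this]
    exact 𝔫.add_mem (h𝔫 _ (int_adjoin hWO hSO hg' x) _ hf) (h𝔫 _ (int_adjoin hWO hSO hf' 0) _ hg)

/-- **A Hopf order all of whose functions are constant modulo `𝔫` gives a connected model.** -/
theorem _root_.Fermat.Agent.FF.HOPF.Order6.IsHopfOrder.hasConnModel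
    {H : Subalgebra W (M → Ω)} (hH : IsHopfOrder act H)
    (hF : FixedInFrac W Ω Γ) (hact0 : ∀ σ, act σ 0 = 0) (𝔫 : Set Ω)
    (hconn : ∀ h ∈ H, ∀ x : M, h x - h 0 ∈ 𝔫) :
    HasConnModel W Ω Γ 𝔫 M act := by
  haveI := hH.toIsPreOrder.free
  haveI := hH.fg
  have D := hH.funHopfData hF hact0
  letI := D.hopfAlgebra
  let evB : M → WithConv (H →ₐ[W] Ω) := fun x => toConv (evS H x)
  have hinj : Function.Injective evB := fun x y hxy =>
    hH.toIsPreOrder.evS_injective (congrArg WithConv.ofConv hxy)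
  have hcard : Nat.card (WithConv (H →ₐ[W] Ω)) ≤ Nat.card M :=
    le_trans card_pts_le_finrank (hH.finrank_le hF)
  have hbij : Function.Bijective evB := hinj.bijective_of_nat_card_le hcard
  let e0 : M ≃ WithConv (H →ₐ[W] Ω) := Equiv.ofBijective evB hbij
  refine ⟨H, inferInstance, D.hopfAlgebra, inferInstance, inferInstance, D.isCocomm, ?_, e0.symm,
    ?_, ?_⟩
  · intro f h
    have h1 : f = evB (e0.symm f) := (Equiv.apply_symm_apply e0 f).symm
    have h2 : (1 : WithConv (H →ₐ[W] Ω)) = evB 0 := D.toConv_ev_zero.symm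
    have h3 : f h = h.1 (e0.symm f) :=
      congrArg (fun g : WithConv (H →ₐ[W] Ω) => g h) h1
    have h4 : (1 : WithConv (H →ₐ[W] Ω)) h = h.1 0 :=
      congrArg (fun g : WithConv (H →ₐ[W] Ω) => g h) h2
    rw [h3, h4]
    exact hconn h.1 h.2 (e0.symm f)
  · intro f g
    rw [Equiv.symm_apply_eq]
    change f * g = evB (e0.symm f + e0.symm g)
    have h1 : evB (e0.symm f + e0.symm g) = evB (e0.symm f) * evB (e0.symm g) :=
      D.toConv_ev_add _ _
    rw [h1]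
    change f * g = e0 (e0.symm f) * e0 (e0.symm g)
    rw [Equiv.apply_symm_apply, Equiv.apply_symm_apply]
  · intro σ f
    rw [Equiv.symm_apply_eq]
    change σ • f = evB (act σ (e0.symm f))
    have h1 : f = evB (e0.symm f) := (Equiv.apply_symm_apply e0 f).symm
    conv_lhs => rw [h1]
    apply pts_ext
    intro h
    change σ • h.1 (e0.symm f) = h.1 (act σ (e0.symm f))
    exact (hH.equiv h.1 h.2 σ _).symm

/-- **An approximate Hopf generating set with `𝔫`-valued generators gives a connected model.** -/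
theorem hasConnModel_of_approxGen (hact : IsAct act)
    (hactadd : ∀ σ x y, act σ (x + y) = act σ x + act σ y)
    (hF : FixedInFrac W Ω Γ) (O : Subring Ω) (hWO : ∀ w : W, algebraMap W Ω w ∈ O)
    (hOfix : ∀ x ∈ O, (∀ σ : Γ, σ • x = x) → x ∈ (algebraMap W Ω).range)
    (𝔫 : AddSubgroup Ω) (h𝔫 : ∀ o ∈ O, ∀ a ∈ 𝔫, o * a ∈ 𝔫)
    {S : Set (M → Ω)} (hA : ApproxGen W O act S) (hS𝔫 : ∀ s ∈ S, ∀ x, s x ∈ 𝔫) :
    HasConnModel W Ω Γ (𝔫 : Set Ω) M act := by
  have h0 : ∀ σ, act σ 0 = 0 := fun σ => by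
    have := hactadd σ 0 0
    rw [add_zero] at this
    exact left_eq_add.1 this
  exact (isHopfOrder_adjoin hact hactadd hF O hWO hOfix hA).hasConnModel hF h0 _
    (fun h hh x => sub_zero_mem_of_adjoin O hWO 𝔫 h𝔫 hA.int hS𝔫 hh x)

/-- **Connectedness from an approximate Hopf generating set** (`p` odd, `W` unramified). -/
theorem conn_of_approxGen (hact : IsAct act)
    (hactadd : ∀ σ x y, act σ (x + y) = act σ x + act σ y)
    (hF : FixedInFrac W Ω Γ) (O : Subring Ω) (hWO : ∀ w : W, algebraMap W Ω w ∈ O)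
    (hOfix : ∀ x ∈ O, (∀ σ : Γ, σ • x = x) → x ∈ (algebraMap W Ω).range)
    (𝔫 : AddSubgroup Ω) (h𝔫 : ∀ o ∈ O, ∀ a ∈ 𝔫, o * a ∈ 𝔫)
    {p : ℕ} (hp : p.Prime) (hp2 : p ≠ 2) (hp0 : (p : W) ≠ 0)
    (hsep : ∀ s : W, (∀ n : ℕ, ∃ d, s = (p : W) ^ n * d) → s = 0)
    (hunit : ∀ q : ℕ, q.Prime → q ≠ p → IsUnit (q : W))
    (hunr : ∀ w : W, algebraMap W Ω w ∈ 𝔫 → (p : W) ∣ w)
    {S : Set (M → Ω)} (hA : ApproxGen W O act S) (hS𝔫 : ∀ s ∈ S, ∀ x, s x ∈ 𝔫) :
    Conn (⊤ : Subgroup Γ) act ⊤ :=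
  HasConnModel.conn hF hp hp2 hp0 hsep hunit hunr
    (hasConnModel_of_approxGen hact hactadd hF O hWO hOfix 𝔫 h𝔫 hA hS𝔫)

end

end Fermat.Agent.ORD.CONN.ApproxConn6
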