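/-
Programme ORD (S33), chapter CONN (helper6), file ConnWur6: **the concrete instance of
`ApproxConn6`** for the unramified integers at `p` (`p` odd).

LOCAL (`W = Our p ⊆ ℚ̄_p`, `O = ballS p`, `Γ = Iq p`, `𝔫 = openBall p`):
* `openBall p : AddSubgroup (PadicAlgCl p)` (`‖x‖ < 1`), `mem_openBall_iff`;
* `conn_of_approxGen_Our` : `ApproxGen (Our p) (ballS p) act S`, all `s ∈ S` of norm `< 1` everywhere
  ⇒ `Conn (⊤ : Subgroup (Iq p)) act ⊤`.

GLOBAL (`W = Wur p ⊆ ℚ̄`, `O = placeS p`, `Γ = Iv p`):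
* **`conn_of_approxGen_Wur`** : `act : Iv p → M → M` an additive action on a finite `M`,
  `ApproxGen (Wur p) (placeS p) act S`, all values of all `s ∈ S` in `(padicPlace p).nonunits`
  ⇒ `Conn (⊤ : Subgroup (Iv p)) act ⊤`   (transport to `ℚ̄_p` by `Map2.approxGen_map`).

SUBGROUP FORM (what `OrdP.of_conn` consumes):
* `conn_of_conn_top` : `I ≤ G`, `M0 ≤ M`, `act0 : I → M0 → M0` with `(act0 γ x : M) = act γ x`,
  `Conn ⊤ act0 ⊤` ⇒ `Conn I act M0`;
* **`conn_subgroup_of_approxGen`** : `act : G_ℚ → M → M`, `M0 ≤ M` finite and `Iv p`-stable, the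
  restricted action `act0` on `M0` an additive action with an `m_A`-valued approximate Hopf
  generating set ⇒ `Conn (Iv p) act M0`.
-/
import Mathlib
import Fermat.Agent.ORD.CONN.ApproxConn6
import Fermat.Agent.FF.BASE.Map2

set_option autoImplicit false
set_option linter.unusedSectionVars false

namespace Fermat.Agent.ORD.CONN.ConnWur6

open Fermat.Agent.ORD.ALG.OrdP7 Fermat.Agent.ORD.CONN.ApproxConn6
  Fermat.Agent.ORD.CONN.ConnModel6 Fermat.Agent.FF.HOPF.Approx6
  Fermat.Agent.FF.BASE.ApproxGen2 Fermat.Agent.FF.BASE.Place2 Fermat.Agent.FF.BASE.Map2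
  Fermat.Agent.FF.BASE.GlobalDescent2 Fermat.Agent.TW.FLAT.UnrBase7 Fermat.Agent.TW.LOC.Defs2
  Fermat.Agent.TW.FLAT.IntrinsicLocal7 Fermat.Agent.TW.FLAT.Points6 Fermat.Agent.TW.FLAT.Descent6
  Fermat.Agent.TW.FLAT.FlatModule6 GaloisRep

noncomputable section

/-! ### The subgroup form of connectedness -/

section Sub

variable {G : Type*} [Group G] {M : Type*} [AddCommGroup M]

/-- Connectedness of the module `M0` (for the group `I`) gives connectedness of the subgroup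
`M0 ≤ M` (for `I ≤ G`). -/
theorem conn_of_conn_top {I : Subgroup G} {act : G → M → M} (M0 : AddSubgroup M)
    (act0 : I → M0 → M0) (hcompat : ∀ (γ : I) (x : M0), ((act0 γ x : M0) : M) = act γ.1 x.1)
    (h : Conn (⊤ : Subgroup I) act0 ⊤) : Conn I act M0 := by
  intro Y'' Y' h1 h2 h3
  have key : Y'.comap M0.subtype ≤ Y''.comap M0.subtype := by
    refine h _ _ (AddSubgroup.comap_mono h1) le_top ?_
    intro γ _ y hy
    rw [AddSubgroup.mem_comap] at hy ⊢
    rw [map_sub]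
    change ((act0 γ y : M0) : M) - (y : M) ∈ Y''
    rw [hcompat]
    exact h3 γ.1 γ.2 _ hy
  intro y hy
  have : (⟨y, h2 hy⟩ : M0) ∈ Y''.comap M0.subtype := key (by rw [AddSubgroup.mem_comap]; exact hy)
  exact this

end Sub

variable (p : ℕ) [Fact p.Prime]

/-! ### The local statement -/

section Local

local notation "Ω" => PadicAlgCl p

/-- The open unit ball of `ℚ̄_p`, as an additive subgroup. -/
def openBall : AddSubgroup (PadicAlgCl p) where
  carrier := {x | ‖x‖ < 1}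
  add_mem' := fun {a b} ha hb =>
    lt_of_le_of_lt (PadicAlgCl.isNonarchimedean p a b) (max_lt ha hb)
  zero_mem' := by
    show ‖(0 : PadicAlgCl p)‖ < 1
    rw [norm_zero]
    exact zero_lt_one
  neg_mem' := fun {a} ha => by
    show ‖-a‖ < 1
    rw [norm_neg]
    exact ha

variable {p}

lemma mem_openBall_iff {x : Ω} : x ∈ openBall p ↔ ‖x‖ < 1 := Iff.rfl

lemma natCast_Our_ne_zero : ((p : ℕ) : Our p) ≠ 0 := by
  intro h
  have h1 : (((p : ℕ) : Our p) : Ω) = ((0 : Our p) : Ω) := congrArg Subtype.val h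
  rw [coe_natCast] at h1
  exact natCast_ne_zero' p h1

lemma inv_p_lt_one : ((p : ℝ))⁻¹ < 1 := by
  have hq : (1 : ℝ) < p := by exact_mod_cast (Fact.out : p.Prime).one_lt
  exact inv_lt_one_of_one_lt₀ hq

lemma sep_Our (s : Our p) (h : ∀ n : ℕ, ∃ d : Our p, s = ((p : ℕ) : Our p) ^ n * d) : s = 0 := by
  by_contra hs
  have hs0 : (s : Ω) ≠ 0 := fun h0 => hs (Subtype.ext h0)
  obtain ⟨n, hn⟩ := exists_pow_lt_of_lt_one (norm_pos_iff.2 hs0) (inv_p_lt_one (p := p))
  obtain ⟨d, hd⟩ := h n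
  have h1 : (s : Ω) = ((p : ℕ) : Ω) ^ n * (d : Ω) := by
    have := congrArg (fun x : Our p => (x : Ω)) hd
    simpa using this
  have h2 : ‖(s : Ω)‖ ≤ ((p : ℝ)⁻¹) ^ n := by
    rw [h1, norm_mul, norm_pow, norm_natCast_p]
    have hd1 : ‖(d : Ω)‖ ≤ 1 := norm_le_one d
    have hpn : (0 : ℝ) ≤ ((p : ℝ)⁻¹) ^ n := by positivity
    calc ((p : ℝ)⁻¹) ^ n * ‖(d : Ω)‖ ≤ ((p : ℝ)⁻¹) ^ n * 1 :=
          mul_le_mul_of_nonneg_left hd1 hpn
      _ = ((p : ℝ)⁻¹) ^ n := mul_one _
  exact absurd hn (not_lt.2 h2)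

lemma isUnit_natCast_Our {q : ℕ} (hq : q.Prime) (hqp : q ≠ p) : IsUnit ((q : ℕ) : Our p) := by
  apply isUnit_of_norm_eq_one
  rw [coe_natCast]
  have h1 : ‖((q : ℚ_[p]) : Ω)‖ = ‖(q : ℚ_[p])‖ := PadicAlgCl.norm_extends p _
  have h2 : ((q : ℚ_[p]) : Ω) = ((q : ℕ) : Ω) := map_natCast _ _
  rw [← h2, h1, Padic.norm_natCast_eq_one_iff]
  exact (Nat.coprime_primes (Fact.out : p.Prime) hq).2 (Ne.symm hqp)

lemma dvd_of_mem_openBall (w : Our p) (hw : algebraMap (Our p) Ω w ∈ openBall p) :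
    ((p : ℕ) : Our p) ∣ w := by
  have hw1 : ‖(w : Ω)‖ < 1 := hw
  refine ⟨⟨(w : Ω) / ((p : ℕ) : Ω), div_p_mem p w.2 hw1⟩, ?_⟩
  apply Subtype.ext
  change (w : Ω) = (((p : ℕ) : Our p) : Ω) * ((w : Ω) / ((p : ℕ) : Ω))
  rw [coe_natCast, mul_div_cancel₀ _ (natCast_ne_zero' p)]

variable {M : Type} [AddCommGroup M] [Finite M]

/-- **Connectedness over the local unramified integers.** -/
theorem conn_of_approxGen_Our (hp2 : p ≠ 2) {act : Iq p → M → M} (hact : IsAct act)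
    (hactadd : ∀ σ x y, act σ (x + y) = act σ x + act σ y)
    {S : Set (M → Ω)} (hA : ApproxGen (Our p) (ballS p) act S)
    (hS : ∀ s ∈ S, ∀ x, ‖s x‖ < 1) :
    Conn (⊤ : Subgroup (Iq p)) act ⊤ := by
  refine conn_of_approxGen hact hactadd (fixedInFrac_Our p) (ballS p)
    (fun w => algebraMap_Our_mem w) ?_ (openBall p) ?_ (Fact.out : p.Prime) hp2
    natCast_Our_ne_zero sep_Our (fun q hq hqp => isUnit_natCast_Our hq hqp)
    dvd_of_mem_openBall hA hS
  · intro x hx hfix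
    exact ⟨⟨x, hx, fun σ hσ => hfix ⟨σ, hσ⟩⟩, rfl⟩
  · intro o ho a ha
    rw [mem_openBall_iff] at ha ⊢
    rw [norm_mul]
    exact mul_lt_one_of_nonneg_of_lt_one_right ho (norm_nonneg a) ha

end Local

/-! ### The global statement -/

section Global

variable {p}
variable {M : Type} [AddCommGroup M] [Finite M]

/-- **Connectedness over the unramified integers of `ℚ̄` at `p`** (`p` odd): a finite module with
an action of the inertia group `Iv p` and an approximate Hopf generating set all of whose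
generators take their values in the maximal ideal of `padicPlace p` is connected. -/
theorem conn_of_approxGen_Wur (hp2 : p ≠ 2) {act : Iv p → M → M}
    (hact1 : ∀ x, act 1 x = x) (hactmul : ∀ σ τ x, act (σ * τ) x = act σ (act τ x))
    (hactadd : ∀ σ x y, act σ (x + y) = act σ x + act σ y)
    {S : Set (M → Qb)} (hA : ApproxGen (Wur p) (placeS p) act S)
    (hS : ∀ s ∈ S, ∀ x, s x ∈ (padicPlace p).nonunits) :
    Conn (⊤ : Subgroup (Iv p)) act ⊤ := by
  let r : Iq p → Iv p := fun τ => ⟨rq p τ.1, rq_mem_Iv τ.2⟩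
  have hr1 : r 1 = 1 := Subtype.ext (map_one (rq p))
  have hrmul : ∀ σ τ, r (σ * τ) = r σ * r τ := fun σ τ => Subtype.ext (map_mul (rq p) σ.1 τ.1)
  have hloc : ApproxGen (Our p) (ballS p) (fun τ : Iq p => act (r τ)) (push (iotaHom p) '' S) := by
    refine approxGen_map (φ := iotaHom p) (j := jur p) r (padicEmbedding p).toRingHom.injective
      (fun w => rfl) ?_ ?_ ?_ ?_ hA
    · intro x hx
      exact (mem_placeS_iff p).1 hx
    · intro τ x
      exact padicEmbedding_localGaloisToGlobal p τ.1 x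
    · intro v
      exact algebraMap_Our_mem v
    · intro w' hw'
      obtain ⟨n, u, hu⟩ := Fermat.Agent.TW.FLAT.UnrBase7.exists_eq_pow_mul_unit w' hw'
      refine ⟨((p : ℕ) : Wur p) ^ n, ?_, ?_⟩
      · intro h0
        have h1 := congrArg (fun x : Wur p => (Wur p).subtype x) h0
        simp only [map_pow, map_natCast, map_zero] at h1
        exact pow_ne_zero n (by exact_mod_cast (Fact.out : p.Prime).ne_zero) h1
      · refine ⟨(↑u⁻¹ : Our p), ?_⟩
        rw [map_pow, map_natCast, hu, mul_assoc, Units.mul_inv, mul_one]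
  have hactL : IsAct (fun τ : Iq p => act (r τ)) :=
    ⟨fun x => by rw [hr1, hact1], fun σ τ x => by rw [hrmul, hactmul]⟩
  have hconn := conn_of_approxGen_Our hp2 hactL (fun σ x y => hactadd (r σ) x y) hloc (by
    rintro _ ⟨s, hs, rfl⟩ x
    have := hS s hs x
    rw [Fermat.Agent.FF.BASE.Place2.mem_nonunits_iff] at this
    exact this)
  intro Y'' Y' h1 h2 h3
  exact hconn Y'' Y' h1 h2 (fun τ _ y hy => h3 (r τ) (Subgroup.mem_top _) y hy)

variable (p) in
/-- **Subgroup form**: for a `G_ℚ`-module `M` (no finiteness) and a finite `Iv p`-stable subgroup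
`M0 ≤ M` on which the restricted inertia action has an `m_A`-valued approximate Hopf generating
set, `M0` is connected. -/
theorem conn_subgroup_of_approxGen (hp2 : p ≠ 2) {N : Type} [AddCommGroup N]
    {act : GQ → N → N} (M0 : AddSubgroup N) [Finite M0]
    (hstab : ∀ σ ∈ Iv p, ∀ x ∈ M0, act σ x ∈ M0)
    (hact1 : ∀ x ∈ M0, act 1 x = x)
    (hactmul : ∀ σ ∈ Iv p, ∀ τ ∈ Iv p, ∀ x ∈ M0, act (σ * τ) x = act σ (act τ x))
    (hactadd : ∀ σ ∈ Iv p, ∀ x ∈ M0, ∀ y ∈ M0, act σ (x + y) = act σ x + act σ y)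
    {S : Set (M0 → Qb)}
    (hA : ApproxGen (Wur p) (placeS p)
      (fun (γ : Iv p) (x : M0) => (⟨act γ.1 x.1, hstab γ.1 γ.2 x.1 x.2⟩ : M0)) S)
    (hS : ∀ s ∈ S, ∀ x, s x ∈ (padicPlace p).nonunits) :
    Conn (Iv p) act M0 := by
  refine conn_of_conn_top M0
    (fun (γ : Iv p) (x : M0) => (⟨act γ.1 x.1, hstab γ.1 γ.2 x.1 x.2⟩ : M0)) (fun _ _ => rfl) ?_
  refine conn_of_approxGen_Wur hp2 ?_ ?_ ?_ hA hS
  · intro x
    exact Subtype.ext (hact1 x.1 x.2)
  · intro σ τ x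
    exact Subtype.ext (hactmul σ.1 σ.2 τ.1 τ.2 x.1 x.2)
  · intro σ x y
    exact Subtype.ext (hactadd σ.1 σ.2 x.1 x.2 y.1 y.2)

end Global

end

end Fermat.Agent.ORD.CONN.ConnWur6
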