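/-
Programme ORD (S33), chapter CONN (helper6), file ConnModel6: **connected flat models**.

`HasConnModel R Ω Γ 𝔫 M act` : the `Γ`-module `M` is the group of `Ω`-points of a finite flat
commutative cocommutative Hopf algebra `H` over `R` (as in `Points6.HasFlatModel`) ALL of whose
points are congruent to the unit point modulo `𝔫 ⊆ Ω`:  `f h - 1 h ∈ 𝔫` for all points `f`, all `h : H`
(`𝔫` = the maximal ideal of a valuation ring of `Ω`: "`H` is a local ring").

Closure (`R` a PID, `Ω` a field, `hF : FixedInFrac R Ω Γ`), by re-running the constructions of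
`Closure6` / `Quotient6` (the closure of a stable subgroup is a quotient Hopf algebra, the quotient by a
stable subgroup is the Hopf subalgebra of invariants; in both cases the points of the new Hopf algebra
are restrictions of points of `H`):
* `HasConnModel.hasFlatModel`, `HasConnModel.of_addEquiv`;
* `HasConnModel.subgroup`, `HasConnModel.of_injective`;
* `HasConnModel.of_surjective`;  `HasConnModel.subquotient`.
-/
import Mathlib
import Fermat.Agent.TW.FLAT.Quotient6
import Fermat.Agent.TW.FLAT.SubQuot6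

set_option autoImplicit false

namespace Fermat.Agent.ORD.CONN.ConnModel6

open WithConv TensorProduct Fermat.Agent.TW.FLAT Fermat.Agent.TW.FLAT.Points6
  Fermat.Agent.TW.FLAT.Descent6 Fermat.Agent.TW.FLAT.Closure6 Fermat.Agent.TW.FLAT.HopfSub6
  Fermat.Agent.TW.FLAT.Quotient6

noncomputable section

/-- `M` is the group of `Ω`-points of a finite flat commutative group scheme over `R` all of whose
points are congruent to the unit point modulo `𝔫`. -/
def HasConnModel (R : Type) [CommRing R] (Ω : Type) [CommRing Ω] [Algebra R Ω]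
    (Γ : Type) [Monoid Γ] [MulSemiringAction Γ Ω] [SMulCommClass Γ R Ω] (𝔫 : Set Ω)
    (M : Type) [AddCommGroup M] (act : Γ → M → M) : Prop :=
  ∃ (H : Type) (_ : CommRing H) (_ : HopfAlgebra R H),
    Module.Finite R H ∧ Module.Flat R H ∧ Coalgebra.IsCocomm R H ∧
    (∀ (f : WithConv (H →ₐ[R] Ω)) (h : H), f h - (1 : WithConv (H →ₐ[R] Ω)) h ∈ 𝔫) ∧
    ∃ e : WithConv (H →ₐ[R] Ω) ≃ M,
      (∀ f g : WithConv (H →ₐ[R] Ω), e (f * g) = e f + e g) ∧
      ∀ (σ : Γ) (f : WithConv (H →ₐ[R] Ω)), e (σ • f) = act σ (e f)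

section Basic

variable {R : Type} [CommRing R] {Ω : Type} [CommRing Ω] [Algebra R Ω]
    {Γ : Type} [Monoid Γ] [MulSemiringAction Γ Ω] [SMulCommClass Γ R Ω] {𝔫 : Set Ω}
    {M : Type} [AddCommGroup M] {act : Γ → M → M}
    {M' : Type} [AddCommGroup M'] {act' : Γ → M' → M'}

lemma HasConnModel.hasFlatModel (h : HasConnModel R Ω Γ 𝔫 M act) : HasFlatModel R Ω Γ M act := by
  obtain ⟨H, i1, i2, hfin, hflat, hco, -, e, hmul, heq⟩ := h
  exact ⟨H, i1, i2, hfin, hflat, hco, e, hmul, heq⟩

/-- Transport along an equivariant additive isomorphism. -/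
lemma HasConnModel.of_addEquiv (h : HasConnModel R Ω Γ 𝔫 M act) (φ : M ≃+ M')
    (hφ : ∀ (σ : Γ) (m : M), φ (act σ m) = act' σ (φ m)) : HasConnModel R Ω Γ 𝔫 M' act' := by
  obtain ⟨H, i1, i2, hfin, hflat, hco, hc, e, hmul, heq⟩ := h
  refine ⟨H, i1, i2, hfin, hflat, hco, hc, e.trans φ.toEquiv, ?_, ?_⟩
  · intro f g
    simp [hmul]
  · intro σ f
    simp [heq, hφ]

end Basic

section Model

variable {R : Type} [CommRing R] [IsDomain R] [IsPrincipalIdealRing R]
  {Ω : Type} [Field Ω] [Algebra R Ω] [FaithfulSMul R Ω]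
  {Γ : Type} [Group Γ] [MulSemiringAction Γ Ω] [SMulCommClass Γ R Ω] {𝔫 : Set Ω}
  {M : Type} [AddCommGroup M] {act : Γ → M → M}

/-- the unit point of a quotient Hopf algebra. -/
lemma one_quot_apply {H : Type} [CommRing H] [HopfAlgebra R H] (I : Ideal H) [I.IsHopfIdeal R]
    (h : H) : (1 : WithConv ((H ⧸ I) →ₐ[R] Ω)) (Ideal.Quotient.mk I h)
      = (1 : WithConv (H →ₐ[R] Ω)) h := by
  have h1 : ((Closed6.ptsQuotEquiv (R := R) (B := Ω) I (1 : WithConv ((H ⧸ I) →ₐ[R] Ω)) :
      Closed6.closedPts R I Ω) : WithConv (H →ₐ[R] Ω)) = 1 := by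
    rw [map_one]; rfl
  have h2 := Closed6.ptsQuotEquiv_apply (R := R) (B := Ω) I (1 : WithConv ((H ⧸ I) →ₐ[R] Ω)) h
  rw [← h2, h1]

/-- **Subobjects of connected are connected** (scheme theoretic closure). -/
theorem HasConnModel.subgroup
    (hF : FixedInFrac R Ω Γ) (h : HasConnModel R Ω Γ 𝔫 M act) (N : AddSubgroup M)
    (hN : ∀ (σ : Γ), ∀ m ∈ N, act σ m ∈ N) :
    HasConnModel R Ω Γ 𝔫 N (fun σ n => ⟨act σ n.1, hN σ n.1 n.2⟩) := by
  obtain ⟨H, i1, i2, hfin, hflat, hco, hc, e, hmul, heq⟩ := h
  have he1 : e 1 = 0 := by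
    have := hmul 1 1
    rw [mul_one] at this
    exact left_eq_add.mp this
  have heinv : ∀ f, e f⁻¹ = - e f := by
    intro f
    have := hmul f f⁻¹
    rw [mul_inv_cancel, he1] at this
    exact (neg_eq_of_add_eq_zero_right this.symm).symm
  -- the subgroup of points
  let M' : Subgroup (WithConv (H →ₐ[R] Ω)) :=
    { carrier := {f | e f ∈ N}
      one_mem' := by
        change e 1 ∈ N
        rw [he1]; exact N.zero_mem
      mul_mem' := by
        intro f g hf hg
        change e (f * g) ∈ N
        rw [hmul]; exact N.add_mem hf hg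
      inv_mem' := by
        intro f hf
        change e f⁻¹ ∈ N
        rw [heinv]; exact N.neg_mem hf }
  have hM' : ∀ (σ : Γ), ∀ f ∈ M', σ • f ∈ M' := by
    intro σ f hf
    change e (σ • f) ∈ N
    rw [heq]; exact hN σ _ hf
  have hfree : Module.Free R H := inferInstance
  have hHopf : (closureIdeal M').IsHopfIdeal R := closureIdeal_isHopfIdeal hF M' hM'
  have htf : Module.IsTorsionFree R (H ⧸ closureIdeal M') := quot_closureIdeal_isTorsionFree M'
  have hpts := closedPts_closureIdeal hF M' hM'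
  have hmem : ∀ g : WithConv (H →ₐ[R] Ω),
      g ∈ Closed6.closedPts R (closureIdeal M') Ω ↔ e g ∈ N := by
    intro g
    rw [hpts]
    rfl
  let e₀ : Closed6.closedPts R (closureIdeal M') Ω ≃ N :=
    { toFun := fun f => ⟨e f.1, (hmem f.1).1 f.2⟩
      invFun := fun n => ⟨e.symm n.1, (hmem _).2 (by rw [e.apply_symm_apply]; exact n.2)⟩
      left_inv := fun f => Subtype.ext (e.symm_apply_apply f.1)
      right_inv := fun n => Subtype.ext (e.apply_symm_apply n.1) }
  let e' : WithConv ((H ⧸ closureIdeal M') →ₐ[R] Ω) ≃ N :=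
    (Closed6.ptsQuotEquiv (R := R) (B := Ω) (closureIdeal M')).toEquiv.trans e₀
  have he' : ∀ F : WithConv ((H ⧸ closureIdeal M') →ₐ[R] Ω),
      ((e' F : N) : M) = e (Closed6.ptsQuotEquiv (R := R) (B := Ω) (closureIdeal M') F).1 :=
    fun _ => rfl
  refine ⟨H ⧸ closureIdeal M', inferInstance, inferInstance, inferInstance, inferInstance,
    inferInstance, ?_, e', ?_, ?_⟩
  · intro F q
    obtain ⟨h, rfl⟩ := Ideal.Quotient.mk_surjective q
    rw [one_quot_apply, ← Closed6.ptsQuotEquiv_apply (R := R) (B := Ω) (closureIdeal M') F h]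
    exact hc _ h
  · intro f g
    apply Subtype.ext
    rw [he', map_mul]
    exact hmul _ _
  · intro σ f
    apply Subtype.ext
    rw [he']
    change e (σ • (Closed6.ptsQuotEquiv (R := R) (B := Ω) (closureIdeal M') f).1) =
      act σ (e (Closed6.ptsQuotEquiv (R := R) (B := Ω) (closureIdeal M') f).1)
    exact heq σ _

/-- A module injecting equivariantly into a connected one is connected. -/
theorem HasConnModel.of_injective
    (hF : FixedInFrac R Ω Γ) (h : HasConnModel R Ω Γ 𝔫 M act)
    {M' : Type} [AddCommGroup M'] {act' : Γ → M' → M'} (ι : M' →+ M)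
    (hι : Function.Injective ι) (hιact : ∀ (σ : Γ) (m : M'), ι (act' σ m) = act σ (ι m)) :
    HasConnModel R Ω Γ 𝔫 M' act' := by
  have hN : ∀ (σ : Γ), ∀ m ∈ ι.range, act σ m ∈ ι.range := by
    rintro σ _ ⟨m, rfl⟩
    exact ⟨act' σ m, hιact σ m⟩
  have h1 := HasConnModel.subgroup hF h ι.range hN
  let φ : ι.range ≃+ M' := (AddMonoidHom.ofInjective hι).symm
  refine HasConnModel.of_addEquiv h1 φ ?_
  rintro σ ⟨_, m, rfl⟩
  apply (AddMonoidHom.ofInjective hι).injective
  apply Subtype.ext
  simp only [φ, AddEquiv.apply_symm_apply]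
  have h2 : (AddMonoidHom.ofInjective hι).symm ⟨ι m, m, rfl⟩ = m := by
    apply (AddMonoidHom.ofInjective hι).injective
    rw [AddEquiv.apply_symm_apply]
    rfl
  rw [h2]
  exact (hιact σ m).symm

/-- A connected model can be replaced by a generically split one. -/
theorem exists_split_conn_model (hF : FixedInFrac R Ω Γ) (h : HasConnModel R Ω Γ 𝔫 M act) :
    ∃ (H : Type) (_ : CommRing H) (_ : HopfAlgebra R H),
      Module.Finite R H ∧ Module.Flat R H ∧ Coalgebra.IsCocomm R H ∧
      Function.Injective (evFam (allFam (R := R) (H := H) (Ω := Ω))) ∧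
      (∀ (f : WithConv (H →ₐ[R] Ω)) (h : H), f h - (1 : WithConv (H →ₐ[R] Ω)) h ∈ 𝔫) ∧
      ∃ e : WithConv (H →ₐ[R] Ω) ≃ M,
        (∀ f g : WithConv (H →ₐ[R] Ω), e (f * g) = e f + e g) ∧
        ∀ (σ : Γ) (f : WithConv (H →ₐ[R] Ω)), e (σ • f) = act σ (e f) := by
  obtain ⟨H, i1, i2, hfin, hflat, hco, hc, e, hmul, heq⟩ := h
  let M' : Subgroup (WithConv (H →ₐ[R] Ω)) := ⊤
  have hM' : ∀ (σ : Γ), ∀ f ∈ M', σ • f ∈ M' := fun _ _ _ => Subgroup.mem_top _
  have hfree : Module.Free R H := inferInstance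
  have hHopf : (closureIdeal M').IsHopfIdeal R := closureIdeal_isHopfIdeal hF M' hM'
  have htf : Module.IsTorsionFree R (H ⧸ closureIdeal M') := quot_closureIdeal_isTorsionFree M'
  have hpts := closedPts_closureIdeal hF M' hM'
  let e₀ : Closed6.closedPts R (closureIdeal M') Ω ≃ WithConv (H →ₐ[R] Ω) :=
    { toFun := fun f => f.1
      invFun := fun f => ⟨f, by rw [hpts]; exact Subgroup.mem_top _⟩
      left_inv := fun f => rfl
      right_inv := fun f => rfl }
  let e' : WithConv ((H ⧸ closureIdeal M') →ₐ[R] Ω) ≃ M :=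
    ((Closed6.ptsQuotEquiv (R := R) (B := Ω) (closureIdeal M')).toEquiv.trans e₀).trans e
  have he' : ∀ F : WithConv ((H ⧸ closureIdeal M') →ₐ[R] Ω),
      e' F = e (Closed6.ptsQuotEquiv (R := R) (B := Ω) (closureIdeal M') F).1 := fun _ => rfl
  refine ⟨H ⧸ closureIdeal M', inferInstance, inferInstance, inferInstance, inferInstance,
    inferInstance, ?_, ?_, e', ?_, ?_⟩
  · -- split
    rw [injective_iff_map_eq_zero]
    intro x hx
    apply (injective_iff_map_eq_zero _).1
      (evFam_quot_injective hF (stableFam_subFam M' hM')) x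
    funext k
    have : evFam (quotFam (subFam M')) x k =
        evFam (allFam (R := R) (H := H ⧸ closureIdeal M') (Ω := Ω)) x
          (toConv (quotFam (subFam M') k)) := rfl
    rw [this, hx]
    rfl
  · intro F q
    obtain ⟨h, rfl⟩ := Ideal.Quotient.mk_surjective q
    rw [one_quot_apply, ← Closed6.ptsQuotEquiv_apply (R := R) (B := Ω) (closureIdeal M') F h]
    exact hc _ h
  · intro f g
    rw [he', he', he', map_mul]
    exact hmul _ _
  · intro σ f
    rw [he', he']
    change e (σ • (Closed6.ptsQuotEquiv (R := R) (B := Ω) (closureIdeal M') f).1) = _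
    exact heq σ _

/-- **Quotients of connected are connected**: the image of a connected `Γ`-module under an
equivariant surjective additive map is connected (the Hopf subalgebra of invariant functions). -/
theorem HasConnModel.of_surjective
    (hF : FixedInFrac R Ω Γ) (h : HasConnModel R Ω Γ 𝔫 M act)
    {M'' : Type} [AddCommGroup M''] {act'' : Γ → M'' → M''} (π : M →+ M'')
    (hπ : Function.Surjective π) (hπact : ∀ (σ : Γ) (m : M), π (act σ m) = act'' σ (π m)) :
    HasConnModel R Ω Γ 𝔫 M'' act'' := by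
  obtain ⟨H, i1, i2, hfin, hflat, hco, hsplit, hc, e, hmul, heq⟩ := exists_split_conn_model hF h
  have he1 : e 1 = 0 := by
    have := hmul 1 1
    rw [mul_one] at this
    exact left_eq_add.mp this
  have heinv : ∀ f, e f⁻¹ = - e f := by
    intro f
    have := hmul f f⁻¹
    rw [mul_inv_cancel, he1] at this
    exact (neg_eq_of_add_eq_zero_right this.symm).symm
  have hact0 : ∀ σ : Γ, act'' σ 0 = 0 := by
    intro σ
    have h1 : act σ 0 = 0 := by
      rw [← he1, ← heq, smul_one]
    rw [← map_zero π, ← hπact, h1]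
  -- the kernel subgroup
  let K : Subgroup (WithConv (H →ₐ[R] Ω)) :=
    { carrier := {f | π (e f) = 0}
      one_mem' := by
        change π (e 1) = 0
        rw [he1, map_zero]
      mul_mem' := by
        intro f g hf hg
        change π (e (f * g)) = 0
        rw [hmul, map_add, hf, hg, add_zero]
      inv_mem' := by
        intro f hf
        change π (e f⁻¹) = 0
        rw [heinv, map_neg, hf, neg_zero] }
  have hK : ∀ (σ : Γ), ∀ n ∈ K, σ • n ∈ K := by
    intro σ n hn
    change π (e (σ • n)) = 0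
    rw [heq, hπact, hn, hact0]
  have hfree : Module.Free R H := inferInstance
  have hPfin : Finite (WithConv (H →ₐ[R] Ω)) := inferInstance
  have hemb : IsHopfEmb (invSub K).val := isHopfEmb_invSub K hsplit
  let _ : HopfAlgebra R (invSub K) := hemb.hopfAlgebra
  have hcoS : Coalgebra.IsCocomm R (invSub K) := hemb.isCocomm
  have hflatS : Module.Flat R (invSub K) := invSub_flat K
  have hnoeth : IsNoetherian R H := inferInstance
  have hfinS : Module.Finite R (invSub K) :=
    Module.Finite.of_injective (invSub K).val.toLinearMap Subtype.val_injective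
  -- restriction of points
  let ρ : WithConv (H →ₐ[R] Ω) →* WithConv (invSub K →ₐ[R] Ω) := mapH hemb.bialgHom
  have hρapply : ∀ (f : WithConv (H →ₐ[R] Ω)) (s : invSub K), ρ f s = f (s : H) :=
    fun _ _ => rfl
  have hρsurj : Function.Surjective ρ := by
    intro g
    obtain ⟨f, hf⟩ := exists_extend_invSub hsplit K g.ofConv
    exact ⟨f, pts_ext (fun s => (hρapply f s).trans (hf s))⟩
  have hone : ∀ s : invSub K, (1 : WithConv (invSub K →ₐ[R] Ω)) s =
      (1 : WithConv (H →ₐ[R] Ω)) (s : H) := fun _ => rfl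
  have hker : ∀ f, ρ f = 1 ↔ π (e f) = 0 := by
    intro f
    constructor
    · intro hf
      have : f ∈ K := by
        apply mem_of_forall_invSub_eq hF K hK f
        intro s hs
        have h1 := congrArg (fun g : WithConv (invSub K →ₐ[R] Ω) => g ⟨s, hs⟩) hf
        exact h1
      exact this
    · intro hf
      have hfK : f ∈ K := hf
      apply pts_ext
      intro s
      rw [hρapply, hone]
      have := s.2 1 f hfK
      rwa [one_mul] at this
  obtain ⟨e'', he''⟩ := exists_equiv_of_ker_eq ρ hρsurj (fun f => π (e f))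
    (fun f f' => by rw [hmul, map_add]) (fun m => by
      obtain ⟨m₀, rfl⟩ := hπ m
      exact ⟨e.symm m₀, by simp only [e.apply_symm_apply]⟩) hker
  refine ⟨invSub K, inferInstance, inferInstance, hfinS, hflatS, hcoS, ?_, e'', ?_, ?_⟩
  · intro g s
    obtain ⟨f, rfl⟩ := hρsurj g
    rw [hρapply, hone]
    exact hc f (s : H)
  · intro g g'
    obtain ⟨f, rfl⟩ := hρsurj g
    obtain ⟨f', rfl⟩ := hρsurj g'
    rw [← map_mul, he'', he'', he'', hmul, map_add]
  · intro σ g
    obtain ⟨f, rfl⟩ := hρsurj g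
    have : σ • ρ f = ρ (σ • f) := rfl
    rw [this, he'', he'', heq, hπact]

/-- **Subquotients of connected are connected**: `M'' ←(surjective) M' ↪ M`. -/
theorem HasConnModel.subquotient
    (hF : FixedInFrac R Ω Γ) (h : HasConnModel R Ω Γ 𝔫 M act)
    {M' : Type} [AddCommGroup M'] {act' : Γ → M' → M'} (ι : M' →+ M)
    (hι : Function.Injective ι) (hιact : ∀ (σ : Γ) (m : M'), ι (act' σ m) = act σ (ι m))
    {M'' : Type} [AddCommGroup M''] {act'' : Γ → M'' → M''} (π : M' →+ M'')
    (hπ : Function.Surjective π) (hπact : ∀ (σ : Γ) (m : M'), π (act' σ m) = act'' σ (π m)) :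
    HasConnModel R Ω Γ 𝔫 M'' act'' :=
  (h.of_injective hF ι hι hιact).of_surjective hF π hπ hπact

end Model

end

end Fermat.Agent.ORD.CONN.ConnModel6
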