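/-
Programme ORD (S33), chapter CONN (helper6), file NoFixed6: **a connected flat model over an
absolutely unramified base has no subquotient with trivial action** (`p` odd).

Setting: `W` a PID, `Ω` a field, `Γ` a group acting on `Ω`, `hF : FixedInFrac W Ω Γ` (`Ω^Γ ⊆ Frac W`),
`𝔫 ⊆ Ω`, and a prime number `p` with
  `hp0 : (p : W) ≠ 0`, `hsep : ⋂ pⁿ W = 0`, `hunit` : the primes `q ≠ p` are units of `W`,
  `hunr : algebraMap W Ω w ∈ 𝔫 → p ∣ w`   ("`𝔫 ∩ W = p W`": `W` is unramified).

* `HasConnModel.eq_zero_of_trivial` : a module with a connected model on which `Γ` acts trivially is `0`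
  (a `Γ`-fixed point has values in `W`, is congruent to the unit point modulo `p`, and
  `NoSmallTorsion7.pts_eq_one_of_pow_eq_one` applies because `e = 1 ≤ p - 2`);
* `HasConnModel.act_add`;
* **`HasConnModel.conn`** : `OrdP7.Conn ⊤ act ⊤` (helper7's connectedness: no nonzero subquotient with
  trivial action), via `ConnModel6.HasConnModel.subquotient`.
-/
import Mathlib
import Fermat.Agent.ORD.CONN.ConnModel6
import Fermat.Agent.ORD.ALG.OrdP7
import Fermat.Agent.TW.FLAT.NoSmallTorsion7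
import Fermat.Agent.FF.HOPF.Order6

set_option autoImplicit false

namespace Fermat.Agent.ORD.CONN.NoFixed6

open WithConv TensorProduct Fermat.Agent.TW.FLAT Fermat.Agent.TW.FLAT.Points6
  Fermat.Agent.TW.FLAT.Descent6 Fermat.Agent.ORD.CONN.ConnModel6 Fermat.Agent.ORD.ALG.OrdP7

noncomputable section

variable {W : Type} [CommRing W] [IsDomain W] [IsPrincipalIdealRing W]
  {Ω : Type} [Field Ω] [Algebra W Ω] [FaithfulSMul W Ω]
  {Γ : Type} [Group Γ] [MulSemiringAction Γ Ω] [SMulCommClass Γ W Ω] {𝔫 : Set Ω}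
  {M : Type} [AddCommGroup M] {act : Γ → M → M}

omit [IsDomain W] [IsPrincipalIdealRing W] [FaithfulSMul W Ω] in
/-- the action of a module with a model is additive. -/
lemma HasConnModel.act_add (h : HasConnModel W Ω Γ 𝔫 M act) (σ : Γ) (m m' : M) :
    act σ (m + m') = act σ m + act σ m' := by
  obtain ⟨H, i1, i2, hfin, hflat, hco, hc, e, hmul, heq⟩ := h
  obtain ⟨f, rfl⟩ := e.surjective m
  obtain ⟨g, rfl⟩ := e.surjective m'
  rw [← hmul, ← heq, smul_mul', hmul, heq, heq]

/-- **No fixed points**: a module with a connected model and trivial action is zero. -/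
theorem HasConnModel.eq_zero_of_trivial (hF : FixedInFrac W Ω Γ) {p : ℕ} (hp : p.Prime)
    (hp2 : p ≠ 2) (hp0 : (p : W) ≠ 0)
    (hsep : ∀ s : W, (∀ n : ℕ, ∃ d, s = (p : W) ^ n * d) → s = 0)
    (hunit : ∀ q : ℕ, q.Prime → q ≠ p → IsUnit (q : W))
    (hunr : ∀ w : W, algebraMap W Ω w ∈ 𝔫 → (p : W) ∣ w)
    (h : HasConnModel W Ω Γ 𝔫 M act) (htriv : ∀ σ m, act σ m = m) (m : M) : m = 0 := by
  obtain ⟨H, i1, i2, hfin, hflat, hco, hc, e, hmul, heq⟩ := h
  have he1 : e 1 = 0 := by
    have := hmul 1 1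
    rw [mul_one] at this
    exact left_eq_add.mp this
  suffices hall : ∀ f : WithConv (H →ₐ[W] Ω), f = 1 by
    rw [← e.apply_symm_apply m, hall (e.symm m), he1]
  intro f
  have hinj : Function.Injective (Algebra.ofId W Ω) := FaithfulSMul.algebraMap_injective W Ω
  -- `f` is fixed by `Γ`
  have hfix : ∀ (σ : Γ) (x : H), σ • f x = f x := by
    intro σ x
    have h1 : σ • f = f := e.injective ((heq σ f).trans (htriv σ _))
    have h2 := congrArg (fun g : WithConv (H →ₐ[W] Ω) => g x) h1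
    exact h2
  -- its values lie in `W`
  have hval : ∀ x : H, f x ∈ (Algebra.ofId W Ω).range := by
    intro x
    have hint : IsIntegral W (f x) := by
      have hx : IsIntegral W x := Algebra.IsIntegral.isIntegral x
      exact hx.map f.ofConv
    obtain ⟨w, hw⟩ := Fermat.Agent.FF.HOPF.Order6.IsHopfOrder.mem_range_of_fixed_of_isIntegral hF (f x)
      (fun σ => hfix σ x) hint
    exact ⟨w, hw⟩
  let eW : W ≃ₐ[W] (Algebra.ofId W Ω).range := AlgEquiv.ofInjective (Algebra.ofId W Ω) hinj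
  let f₀ : H →ₐ[W] W := (eW.symm : (Algebra.ofId W Ω).range →ₐ[W] W).comp
    (f.ofConv.codRestrict (Algebra.ofId W Ω).range hval)
  have hf₀ : ∀ x : H, algebraMap W Ω (f₀ x) = f x := by
    intro x
    have h1 : (eW (f₀ x) : Ω) = f x := by
      change (eW (eW.symm _) : Ω) = f x
      rw [AlgEquiv.apply_symm_apply]
      rfl
    exact h1
  let x : WithConv (H →ₐ[W] W) := toConv f₀
  have hxf : mapB (Algebra.ofId W Ω) x = f := by
    apply pts_ext
    intro z
    rw [mapB_apply]
    exact hf₀ z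
  -- the order
  haveI : Finite (WithConv (H →ₐ[W] Ω)) := pts_finite
  set n := Nat.card (WithConv (H →ₐ[W] Ω)) with hn
  have hnpos : 0 < n := Nat.card_pos
  have hfn : f ^ n = 1 := pow_card_eq_one'
  have hxn : x ^ n = 1 := by
    apply mapB_injective (H := H) hinj
    rw [map_pow, hxf, hfn, map_one]
  -- the difference quotient
  have hone : ∀ z : H, (1 : WithConv (H →ₐ[W] Ω)) z = algebraMap W Ω (Coalgebra.counit z) := by
    intro z
    simp [AlgHom.convOne_def]
  let g : H →ₗ[W] W := f₀.toLinearMap - (Coalgebra.counit : H →ₗ[W] W)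
  have hg : ∀ z : H, (p : W) ∣ g z := by
    intro z
    apply hunr
    have h1 : algebraMap W Ω (g z) = f z - (1 : WithConv (H →ₐ[W] Ω)) z := by
      change algebraMap W Ω (f₀ z - Coalgebra.counit z) = _
      rw [map_sub, hf₀, hone]
    rw [h1]
    exact hc f z
  let μ : W →ₗ[W] W := LinearMap.mulLeft W (p : W)
  have hμ : Function.Injective μ := by
    intro a b hab
    exact mul_left_cancel₀ hp0 hab
  have hgμ : ∀ z : H, g z ∈ LinearMap.range μ := by
    intro z
    obtain ⟨d, hd⟩ := hg z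
    exact ⟨d, hd.symm⟩
  let y : H →ₗ[W] W := ((LinearEquiv.ofInjective μ hμ).symm : LinearMap.range μ →ₗ[W] W).comp
    (g.codRestrict (LinearMap.range μ) hgμ)
  have hy0 : ∀ z : H, (p : W) * y z = g z := by
    intro z
    have h1 : ((LinearEquiv.ofInjective μ hμ) (y z) : W) = g z := by
      change ((LinearEquiv.ofInjective μ hμ) ((LinearEquiv.ofInjective μ hμ).symm _) : W) = g z
      rw [LinearEquiv.apply_symm_apply]
      rfl
    exact h1
  have hy : ∀ z : H, x z = algebraMap W W (Coalgebra.counit z) + (p : W) * y z := by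
    intro z
    rw [hy0 z]
    change f₀ z = Coalgebra.counit z + (f₀ z - Coalgebra.counit z)
    ring
  have hprimes : ∀ q : ℕ, q.Prime → q ∣ n →
      ∃ (w : W) (e : ℕ), IsUnit w ∧ e + 2 ≤ q ∧ (q : W) = w * (p : W) ^ e := by
    intro q hq _
    by_cases hqp : q = p
    · subst hqp
      refine ⟨1, 1, isUnit_one, ?_, by simp⟩
      have := hq.two_le
      omega
    · exact ⟨(q : W), 0, hunit q hq hqp, hq.two_le, by simp⟩
  have hx1 : x = 1 :=
    Fermat.Agent.TW.FLAT.NoSmallTorsion7.pts_eq_one_of_pow_eq_one (p : W)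
      (fun s hs => (mul_eq_zero.1 hs).resolve_left hp0) hsep n hnpos hprimes x hxn y hy
  rw [← hxf, hx1, map_one]

/-- **Connectedness**: a module with a connected model has no nonzero subquotient with trivial
action. -/
theorem HasConnModel.conn (hF : FixedInFrac W Ω Γ) {p : ℕ} (hp : p.Prime)
    (hp2 : p ≠ 2) (hp0 : (p : W) ≠ 0)
    (hsep : ∀ s : W, (∀ n : ℕ, ∃ d, s = (p : W) ^ n * d) → s = 0)
    (hunit : ∀ q : ℕ, q.Prime → q ≠ p → IsUnit (q : W))
    (hunr : ∀ w : W, algebraMap W Ω w ∈ 𝔫 → (p : W) ∣ w)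
    (h : HasConnModel W Ω Γ 𝔫 M act) : Conn (⊤ : Subgroup Γ) act ⊤ := by
  intro Y'' Y' h1 _ h3
  have hst : ∀ (σ : Γ), ∀ y ∈ Y', act σ y ∈ Y' := by
    intro σ y hy
    have : act σ y = y + (act σ y - y) := by abel
    rw [this]
    exact Y'.add_mem hy (h1 (h3 σ (Subgroup.mem_top σ) y hy))
  -- the submodule `Y'`
  have hsub : HasConnModel W Ω Γ 𝔫 Y' (fun σ y => ⟨act σ y.1, hst σ y.1 y.2⟩) :=
    h.subgroup hF Y' hst
  -- the quotient `Y' / Y''` with trivial action
  have hquot : HasConnModel W Ω Γ 𝔫 (Y' ⧸ Y''.addSubgroupOf Y') (fun _ q => q) := by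
    refine hsub.of_surjective hF (QuotientAddGroup.mk' (Y''.addSubgroupOf Y'))
      (QuotientAddGroup.mk'_surjective _) ?_
    intro σ y
    change ((⟨act σ y.1, hst σ y.1 y.2⟩ : Y') : Y' ⧸ Y''.addSubgroupOf Y') = (y : Y' ⧸ _)
    rw [QuotientAddGroup.eq, AddSubgroup.mem_addSubgroupOf]
    have h4 := h3 σ (Subgroup.mem_top σ) y.1 y.2
    have h5 : ((-(⟨act σ y.1, hst σ y.1 y.2⟩ : Y') + y : Y') : M) = -(act σ y.1 - y.1) := by
      change -(act σ y.1) + y.1 = _
      abel
    rw [h5]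
    exact Y''.neg_mem h4
  intro y hy
  have h0 := HasConnModel.eq_zero_of_trivial hF hp hp2 hp0 hsep hunit hunr hquot (fun _ _ => rfl)
    ((⟨y, hy⟩ : Y') : Y' ⧸ Y''.addSubgroupOf Y')
  rw [QuotientAddGroup.eq_zero_iff, AddSubgroup.mem_addSubgroupOf] at h0
  exact h0

end

end Fermat.Agent.ORD.CONN.NoFixed6
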